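import Fermat.Agent.PIC.Proper.Primitive
import Fermat.Agent.PIC.Field.Compare
import Fermat.Agent.PIC.Chart.Fibres
import Fermat.Agent.PIC.Ops.BCBasic

/-!
# Extending isomorphisms over a valuation ring

Line bundles over a valuation ring which are isomorphic at the generic point and whose fibres have
comparable Euler characteristics are isomorphic.
-/

set_option autoImplicit false

universe u

open scoped TensorProduct

namespace Fermat.PIC

noncomputable section

section General

variable {R R' : Type u} [CommRing R] [CommRing R'] {φ : R →+* R'}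
  {P P' E E' : Type u} [AddCommGroup P] [AddCommGroup P'] [AddCommGroup E] [AddCommGroup E']
  [Module R P] [Module R P'] [Module R' E] [Module R' E']
  {f : P →+ E} {f' : P' →+ E'}

/-- A map which is integral on generators descends. -/
lemma exists_lift_of_generators (hf : ∀ (a : R) p, f (a • p) = φ a • f p)
    (hf' : ∀ (a : R) p, f' (a • p) = φ a • f' p) (hinj : Function.Injective f')
    (g : E →ₗ[R'] E') {S : Set P} (hS : Submodule.span R S = ⊤)
    (h : ∀ s ∈ S, ∃ q, f' q = g (f s)) : ∃ ψ : P →ₗ[R] P', ∀ p, f' (ψ p) = g (f p) := by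
  have hall : ∀ p, ∃ q, f' q = g (f p) := fun p ↦ by
    have hp : p ∈ Submodule.span R S := hS ▸ trivial
    induction hp using Submodule.span_induction with
    | mem s hs => exact h s hs
    | zero => exact ⟨0, by simp⟩
    | add v w _ _ hv hw =>
      obtain ⟨a, ha⟩ := hv
      obtain ⟨b, hb⟩ := hw
      exact ⟨a + b, by simp [ha, hb]⟩
    | smul a v _ hv =>
      obtain ⟨b, hb⟩ := hv
      exact ⟨a • b, by rw [hf', hb, hf, map_smul]⟩
  choose q hq using hall
  exact ⟨{ toFun := q
           map_add' := fun v w ↦ hinj (by simp [hq])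
           map_smul' := fun a v ↦ hinj (by
             rw [RingHom.id_apply, hf', hq, hq, hf, map_smul]) }, hq⟩

end General

section Denominators

variable {V : Type u} [CommRing V] [IsDomain V] {K : Type u} [Field K] [Algebra V K]
  [IsFractionRing V K] {P E : Type u} [AddCommGroup P] [Module V P] [AddCommGroup E] [Module K E]
  (Φ : K ⊗[V] P ≃ₗ[K] E)

/-- Elements of the generic fibre have denominators. -/
lemma exists_denom (z : E) : ∃ (b : V) (x : P), b ≠ 0 ∧ algebraMap V K b • z = Φ (1 ⊗ₜ x) := by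
  obtain ⟨w, rfl⟩ := Φ.surjective z
  induction w using TensorProduct.induction_on with
  | zero => exact ⟨1, 0, one_ne_zero, by simp⟩
  | tmul a x =>
    obtain ⟨n, d, hd, rfl⟩ := IsFractionRing.div_surjective V a
    have hd0 : algebraMap V K d ≠ 0 := IsFractionRing.to_map_ne_zero_of_mem_nonZeroDivisors hd
    refine ⟨d, n • x, nonZeroDivisors.ne_zero hd, ?_⟩
    rw [← map_smul, TensorProduct.smul_tmul', smul_eq_mul, mul_div_cancel₀ _ hd0,
      Algebra.algebraMap_eq_smul_one, ← TensorProduct.smul_tmul]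
  | add v w hv hw =>
    obtain ⟨b, x, hb, hx⟩ := hv
    obtain ⟨b', y, hb', hy⟩ := hw
    refine ⟨b * b', b' • x + b • y, mul_ne_zero hb hb', ?_⟩
    rw [map_add, smul_add, map_mul, TensorProduct.tmul_add, map_add, TensorProduct.tmul_smul,
      TensorProduct.tmul_smul, algebra_compatible_smul K b', algebra_compatible_smul K b,
      map_smul, map_smul, ← hx, ← hy, smul_smul, smul_smul, mul_comm (algebraMap V K b')]

omit [IsDomain V] in
/-- The generic fibre of a flat module contains it. -/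
lemma injective_one_tmul [Module.Flat V P] :
    Function.Injective fun x : P ↦ Φ ((1 : K) ⊗ₜ x) := by
  refine Φ.injective.comp ?_
  have h := Module.Flat.rTensor_preserves_injective_linearMap (M := P) (Algebra.linearMap V K)
    (IsFractionRing.injective V K)
  intro x y hxy
  have h' : (Algebra.linearMap V K).rTensor P (1 ⊗ₜ x) =
      (Algebra.linearMap V K).rTensor P (1 ⊗ₜ y) := by
    simpa using hxy
  simpa using congrArg (TensorProduct.lid V P) (h h')

end Denominators

namespace Datum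

variable {k : Type u} [Field k] {G : CurveCharts k}

/-- Maps of data base change. -/
theorem Hom.exists_map {B B' : Type u} [CommRing B] [Algebra k B] [CommRing B'] [Algebra k B']
    {φ : B →ₐ[k] B'} {D D' : Datum G B} {F F' : Datum G B'} (c : BC φ D F) (c' : BC φ D' F')
    (ψ : Hom D D') :
    ∃ H : Hom F F', (∀ p, H.f0 (c.f0 p) = c'.f0 (ψ.f0 p)) ∧
      (∀ p, H.f1 (c.f1 p) = c'.f1 (ψ.f1 p)) ∧ ∀ p, H.f01 (c.f01 p) = c'.f01 (ψ.f01 p) := by
  obtain ⟨g0, h0⟩ := exists_semilinear_lift (G.bc0 φ).toRingHom c.f0 c.smul0 c.span0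
    (c'.f0.comp ψ.f0.toAddMonoidHom) fun a p ↦ by simp [c'.smul0]
  obtain ⟨g1, h1⟩ := exists_semilinear_lift (G.bc1 φ).toRingHom c.f1 c.smul1 c.span1
    (c'.f1.comp ψ.f1.toAddMonoidHom) fun a p ↦ by simp [c'.smul1]
  obtain ⟨g01, h01⟩ := exists_semilinear_lift (G.bc01 φ).toRingHom c.f01 c.smul01 c.span01
    (c'.f01.comp ψ.f01.toAddMonoidHom) fun a p ↦ by simp [c'.smul01]
  simp only [AddMonoidHom.comp_apply, LinearMap.toAddMonoidHom_coe] at h0 h1 h01
  refine ⟨⟨g0, g1, g01, fun q ↦ ?_, fun q ↦ ?_⟩, h0, h1, h01⟩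
  · have hq : q ∈ Submodule.span (G.R0 B') (Set.range c.f0) := c.span0 ▸ Submodule.mem_top
    induction hq using Submodule.span_induction with
    | mem q hq =>
      obtain ⟨p, rfl⟩ := hq
      rw [h0, c'.comm0, c.comm0, h01, ψ.comm0]
    | zero => simp
    | add a b _ _ ha hb => simp only [map_add, ha, hb]
    | smul s q _ hq => rw [map_smul, F'.r0_smul, hq, F.r0_smul, map_smul]
  · have hq : q ∈ Submodule.span (G.R1 B') (Set.range c.f1) := c.span1 ▸ Submodule.mem_top
    induction hq using Submodule.span_induction with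
    | mem q hq =>
      obtain ⟨p, rfl⟩ := hq
      rw [h1, c'.comm1, c.comm1, h01, ψ.comm1]
    | zero => simp
    | add a b _ _ ha hb => simp only [map_add, ha, hb]
    | smul s q _ hq => rw [map_smul, F'.r1_smul, hq, F.r1_smul, map_smul]

variable {V : Type u} [CommRing V] [Algebra k V] {K : Type u} [Field K] [Algebra k K] [Algebra V K]
  [IsScalarTower k V K]

/-- The restrictions from the first chart span the overlap. -/
lemma span_range_r0 {B : Type u} [CommRing B] [Algebra k B] (D : Datum G B) :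
    Submodule.span (G.R01 B) (Set.range D.r0) = ⊤ := by
  rw [eq_top_iff]
  intro z _
  obtain ⟨n, p, hp⟩ := D.r0_surj z
  have : z = (↑((G.xUnit B) ^ n)⁻¹ : G.R01 B) • D.r0 p := by
    rw [hp, smul_smul, ← Units.val_pow_eq_pow_val, Units.inv_mul, one_smul]
  rw [this]
  exact Submodule.smul_mem _ _ (Submodule.subset_span ⟨p, rfl⟩)

/-- Over a domain a datum injects into its generic fibre. -/
lemma BC.injective_of_isFractionRing [IsDomain V] [IsFractionRing V K] {D : Datum G V}
    {E : Datum G K} (bc : BC (IsScalarTower.toAlgHom k V K) D E) :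
    Function.Injective bc.f0 ∧ Function.Injective bc.f1 ∧ Function.Injective bc.f01 := by
  refine ⟨?_, ?_, ?_⟩
  · convert injective_one_tmul bc.Φ0 using 1; funext x; simp
  · convert injective_one_tmul bc.Φ1 using 1; funext x; simp
  · convert injective_one_tmul bc.Φ01 using 1; funext x; simp

/-- A suitable multiple of an isomorphism at the generic point is a map of data over the valuation
ring which sends some section to one with a unit coordinate. -/
theorem exists_hom_of_generic [IsDomain V] [ValuationRing V] [IsFractionRing V K]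
    {D D' : Datum G V} {E E' : Datum G K} (bc : BC (IsScalarTower.toAlgHom k V K) D E)
    (bc' : BC (IsScalarTower.toAlgHom k V K) D' E') (e : Equiv E E')
    (hnt : Nontrivial D.P0) :
    ∃ ψ : Hom D D', (∃ (s : D.P0) (g : Module.Dual V D'.P0), IsUnit (g (ψ.f0 s))) ∨
      ∃ (s : D.P1) (g : Module.Dual V D'.P1), IsUnit (g (ψ.f1 s)) := by
  classical
  obtain ⟨S₀, hS₀⟩ := (Module.Finite.fg_top (R := G.R0 V) (M := D.P0))
  obtain ⟨S₁, hS₁⟩ := (Module.Finite.fg_top (R := G.R1 V) (M := D.P1))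
  obtain ⟨hflat0, hflat1, hflat01⟩ := bc'.injective_of_isFractionRing
  obtain ⟨hflat, -, -⟩ := bc.injective_of_isFractionRing
  choose b0 x0 hb0 hx0 using fun s : D.P0 ↦ exists_denom bc'.Φ0 (e.e0 (bc.f0 s))
  choose b1 x1 hb1 hx1 using fun s : D.P1 ↦ exists_denom bc'.Φ1 (e.e1 (bc.f1 s))
  simp only [BC.Φ0_tmul, BC.Φ1_tmul, one_smul] at hx0 hx1
  -- a common denominator for the images of all generators
  let b : V := (∏ s ∈ S₀, b0 s) * ∏ s ∈ S₁, b1 s
  have hb : b ≠ 0 := mul_ne_zero (Finset.prod_ne_zero_iff.mpr fun s _ ↦ hb0 s)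
    (Finset.prod_ne_zero_iff.mpr fun s _ ↦ hb1 s)
  have hbK : algebraMap V K b ≠ 0 := fun h ↦ hb (IsFractionRing.injective V K (by rw [h, map_zero]))
  have hd0 : ∀ s ∈ S₀, ∃ q, bc'.f0 q = algebraMap V K b • e.e0 (bc.f0 s) := fun s hs ↦ by
    refine ⟨((∏ t ∈ S₀.erase s, b0 t) * ∏ t ∈ S₁, b1 t) • x0 s, ?_⟩
    rw [bc_smul bc'.f0 bc'.smul0, ← hx0, smul_smul, ← map_mul, mul_right_comm,
      Finset.prod_erase_mul _ _ hs]
  have hd1 : ∀ s ∈ S₁, ∃ q, bc'.f1 q = algebraMap V K b • e.e1 (bc.f1 s) := fun s hs ↦ by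
    refine ⟨((∏ t ∈ S₀, b0 t) * ∏ t ∈ S₁.erase s, b1 t) • x1 s, ?_⟩
    rw [bc_smul bc'.f1 bc'.smul1, ← hx1, smul_smul, ← map_mul, mul_assoc,
      Finset.prod_erase_mul _ _ hs]
  choose q0 hq0 using hd0
  choose q1 hq1 using hd1
  let p : ↥S₀ ⊕ ↥S₁ → D'.P0 × D'.P1 := Sum.elim (fun s ↦ (q0 s.1 s.2, 0)) fun s ↦ (0, q1 s.1 s.2)
  have hp : ∃ i, p i ≠ 0 := by
    obtain ⟨x, hx⟩ := exists_ne (0 : D.P0)
    by_contra! h
    refine hx ?_
    have hall : ∀ z ∈ Submodule.span (G.R0 V) (S₀ : Set D.P0), z = 0 := fun z hz ↦ by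
      induction hz using Submodule.span_induction with
      | mem s hs =>
        have h1 : q0 s hs = 0 := congrArg Prod.fst (h (Sum.inl ⟨s, hs⟩))
        have h2 := hq0 s hs
        rw [h1, map_zero] at h2
        refine hflat ?_
        rw [map_zero]
        exact e.e0.map_eq_zero_iff.mp ((smul_eq_zero.mp h2.symm).resolve_left hbK)
      | zero => rfl
      | add v w _ _ hv hw => rw [hv, hw, add_zero]
      | smul a v _ hv => rw [hv, smul_zero]
    exact hall x (hS₀ ▸ Submodule.mem_top)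
  -- divide by the content, so that some image has a unit coordinate
  obtain ⟨a, q, ha, hpq, i, g, hg⟩ := exists_primitive (V := V) p hp
  have haK : algebraMap V K a ≠ 0 := fun h ↦ ha (IsFractionRing.injective V K (by rw [h, map_zero]))
  let c : K := (algebraMap V K a)⁻¹ * algebraMap V K b
  have hc0 : ∀ s (hs : s ∈ S₀), bc'.f0 (q (Sum.inl ⟨s, hs⟩)).1 = c • e.e0 (bc.f0 s) := by
    intro s hs
    rw [← smul_smul, ← hq0 s hs, show q0 s hs = a • (q (Sum.inl ⟨s, hs⟩)).1 from
      congrArg Prod.fst (hpq (Sum.inl ⟨s, hs⟩)), bc_smul bc'.f0 bc'.smul0, inv_smul_smul₀ haK]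
  have hc1 : ∀ s (hs : s ∈ S₁), bc'.f1 (q (Sum.inr ⟨s, hs⟩)).2 = c • e.e1 (bc.f1 s) := by
    intro s hs
    rw [← smul_smul, ← hq1 s hs, show q1 s hs = a • (q (Sum.inr ⟨s, hs⟩)).2 from
      congrArg Prod.snd (hpq (Sum.inr ⟨s, hs⟩)), bc_smul bc'.f1 bc'.smul1, inv_smul_smul₀ haK]
  obtain ⟨ψ0, hψ0⟩ := exists_lift_of_generators (φ :=
    (G.bc0 (IsScalarTower.toAlgHom k V K)).toRingHom)
    bc.smul0 bc'.smul0 hflat0 (algebraMap K (G.R0 K) c • e.e0.toLinearMap) hS₀
    fun s hs ↦ ⟨_, (hc0 s hs).trans (algebraMap_smul (G.R0 K) c _).symm⟩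
  obtain ⟨ψ1, hψ1⟩ := exists_lift_of_generators (φ :=
    (G.bc1 (IsScalarTower.toAlgHom k V K)).toRingHom)
    bc.smul1 bc'.smul1 hflat1 (algebraMap K (G.R1 K) c • e.e1.toLinearMap) hS₁
    fun s hs ↦ ⟨_, (hc1 s hs).trans (algebraMap_smul (G.R1 K) c _).symm⟩
  simp only [LinearMap.smul_apply, LinearEquiv.coe_coe, algebraMap_smul] at hψ0 hψ1
  obtain ⟨ψ01, hψ01⟩ := exists_lift_of_generators (φ :=
    (G.bc01 (IsScalarTower.toAlgHom k V K)).toRingHom)
    bc.smul01 bc'.smul01 hflat01 (algebraMap K (G.R01 K) c • e.e01.toLinearMap) D.span_range_r0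
    (by
      rintro _ ⟨x, rfl⟩
      refine ⟨D'.r0 (ψ0 x), ?_⟩
      rw [LinearMap.smul_apply, LinearEquiv.coe_coe, algebraMap_smul, ← bc'.comm0, hψ0, map_smul,
        e.comm0, bc.comm0])
  simp only [LinearMap.smul_apply, LinearEquiv.coe_coe, algebraMap_smul] at hψ01
  let ψ : Hom D D' :=
    { f0 := ψ0
      f1 := ψ1
      f01 := ψ01
      comm0 := fun x ↦ hflat01 (by
        rw [← bc'.comm0, hψ0, hψ01, map_smul, e.comm0, bc.comm0])
      comm1 := fun x ↦ hflat01 (by
        rw [← bc'.comm1, hψ1, hψ01, map_smul, e.comm1, bc.comm1]) }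
  refine ⟨ψ, ?_⟩
  have hsplit : g (q i) = g ((q i).1, 0) + g (0, (q i).2) := by
    rw [← map_add, Prod.mk_add_mk, add_zero, zero_add]
  rcases i with ⟨s, hs⟩ | ⟨s, hs⟩
  · left
    have h2 : a • (q (Sum.inl ⟨s, hs⟩)).2 = 0 := (congrArg Prod.snd (hpq (Sum.inl ⟨s, hs⟩))).symm
    have hz : (q (Sum.inl ⟨s, hs⟩)).2 = 0 := hflat1 (by
      have := congrArg bc'.f1 h2
      rw [bc_smul bc'.f1 bc'.smul1, map_zero, smul_eq_zero] at this
      rw [map_zero]; exact this.resolve_left haK)
    refine ⟨s, g.comp (LinearMap.inl V D'.P0 D'.P1), ?_⟩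
    rw [show ψ.f0 s = (q (Sum.inl ⟨s, hs⟩)).1 from hflat0 ((hψ0 s).trans (hc0 s hs).symm)]
    rw [hz, Prod.mk_zero_zero, map_zero, add_zero, hg] at hsplit
    rw [LinearMap.comp_apply, LinearMap.inl_apply, ← hsplit]
    exact isUnit_one
  · right
    have h2 : a • (q (Sum.inr ⟨s, hs⟩)).1 = 0 := (congrArg Prod.fst (hpq (Sum.inr ⟨s, hs⟩))).symm
    have hz : (q (Sum.inr ⟨s, hs⟩)).1 = 0 := hflat0 (by
      have := congrArg bc'.f0 h2
      rw [bc_smul bc'.f0 bc'.smul0, map_zero, smul_eq_zero] at this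
      rw [map_zero]; exact this.resolve_left haK)
    refine ⟨s, g.comp (LinearMap.inr V D'.P0 D'.P1), ?_⟩
    rw [show ψ.f1 s = (q (Sum.inr ⟨s, hs⟩)).2 from hflat1 ((hψ1 s).trans (hc1 s hs).symm)]
    rw [hz, Prod.mk_zero_zero, map_zero, zero_add, hg] at hsplit
    rw [LinearMap.comp_apply, LinearMap.inr_apply, ← hsplit]
    exact isUnit_one

/-- A map which is surjective on both charts in every fibre is bijective. -/
theorem Hom.bijective_of_forall_fibre {B : Type u} [CommRing B] [Algebra k B] {D D' : Datum G B}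
    (ψ : Hom D D')
    (h : ∀ (p : PrimeSpectrum B) (H : Hom (D.fibre p) (D'.fibre p)),
      (∀ x, H.f0 ((D.fibreBC p).f0 x) = (D'.fibreBC p).f0 (ψ.f0 x)) →
      (∀ x, H.f1 ((D.fibreBC p).f1 x) = (D'.fibreBC p).f1 (ψ.f1 x)) →
      Function.Surjective H.f0 ∧ Function.Surjective H.f1) :
    Function.Bijective ψ.f0 ∧ Function.Bijective ψ.f1 ∧ Function.Bijective ψ.f01 := by
  -- onto on each chart by the fibres; onto between invertibles is bijective
  have hs0 : Function.Surjective ψ.f0 := by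
    refine surjective_of_forall_fibre (B := B) ψ.f0 fun p ↦ ?_
    obtain ⟨H, hH0, hH1, -⟩ := Hom.exists_map (D.fibreBC p) (D'.fibreBC p) ψ
    have key : ∀ w, (D'.fibreBC p).Φ0 ((ψ.f0.restrictScalars B).baseChange _ w) =
        H.f0 ((D.fibreBC p).Φ0 w) := fun w ↦ by
      induction w using TensorProduct.induction_on with
      | zero => simp
      | tmul a x => simp [hH0, LinearMap.map_smul_of_tower]
      | add v w hv hw => simp only [map_add, hv, hw]
    intro z
    obtain ⟨y, hy⟩ := (h p H hH0 hH1).1 ((D'.fibreBC p).Φ0 z)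
    obtain ⟨w, rfl⟩ := (D.fibreBC p).Φ0.surjective y
    exact ⟨w, (D'.fibreBC p).Φ0.injective ((key w).trans hy)⟩
  have hs1 : Function.Surjective ψ.f1 := by
    refine surjective_of_forall_fibre (B := B) ψ.f1 fun p ↦ ?_
    obtain ⟨H, hH0, hH1, -⟩ := Hom.exists_map (D.fibreBC p) (D'.fibreBC p) ψ
    have key : ∀ w, (D'.fibreBC p).Φ1 ((ψ.f1.restrictScalars B).baseChange _ w) =
        H.f1 ((D.fibreBC p).Φ1 w) := fun w ↦ by
      induction w using TensorProduct.induction_on with
      | zero => simp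
      | tmul a x => simp [hH1, LinearMap.map_smul_of_tower]
      | add v w hv hw => simp only [map_add, hv, hw]
    intro z
    obtain ⟨y, hy⟩ := (h p H hH0 hH1).2 ((D'.fibreBC p).Φ1 z)
    obtain ⟨w, rfl⟩ := (D.fibreBC p).Φ1.surjective y
    exact ⟨w, (D'.fibreBC p).Φ1.injective ((key w).trans hy)⟩
  have hs01 : Function.Surjective ψ.f01 := fun z ↦ by
    have hz : z ∈ Submodule.span (G.R01 B) (Set.range D'.r0) := D'.span_range_r0 ▸ Submodule.mem_top
    induction hz using Submodule.span_induction with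
    | mem z hz =>
      obtain ⟨q, rfl⟩ := hz
      obtain ⟨x, rfl⟩ := hs0 q
      exact ⟨D.r0 x, (ψ.comm0 x).symm⟩
    | zero => exact ⟨0, map_zero _⟩
    | add v w _ _ hv hw =>
      obtain ⟨x, rfl⟩ := hv
      obtain ⟨y, rfl⟩ := hw
      exact ⟨x + y, map_add _ _ _⟩
    | smul a v _ hv =>
      obtain ⟨x, rfl⟩ := hv
      exact ⟨a • x, map_smul _ _ _⟩
  exact ⟨Module.Invertible.bijective_of_surjective hs0,
    Module.Invertible.bijective_of_surjective hs1, Module.Invertible.bijective_of_surjective hs01⟩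

variable [IsAlgClosed k]

/-- Data over a valuation ring which are isomorphic at the generic point are isomorphic, if the
fibres of the second have Euler characteristic at most that of the fibres of the first. -/
theorem nonempty_equiv_of_generic [IsDomain V] [ValuationRing V] [IsFractionRing V K]
    {D D' : Datum G V} {E E' : Datum G K} (bc : BC (IsScalarTower.toAlgHom k V K) D E)
    (bc' : BC (IsScalarTower.toAlgHom k V K) D' E') (e : Equiv E E')
    (hχ : ∀ p : PrimeSpectrum V, (D'.fibre p).χ ≤ (D.fibre p).χ) : Nonempty (Equiv D D') := by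
  have hnt : Nontrivial D.P0 := by
    by_contra h
    rw [not_nontrivial_iff_subsingleton] at h
    exact one_ne_zero (FaithfulSMul.eq_of_smul_eq_smul (α := D.P0)
      fun x ↦ Subsingleton.elim ((1 : G.R0 V) • x) ((0 : G.R0 V) • x))
  obtain ⟨ψ, hψ⟩ := exists_hom_of_generic bc bc' e hnt
  refine ⟨ψ.toEquiv ?_ ?_ ?_⟩
  all_goals
    have hb := ψ.bijective_of_forall_fibre fun p H h0 h1 ↦ by
      have hH : H.f01 ≠ 0 := by
        rcases hψ with ⟨s, g, hg⟩ | ⟨s, g, hg⟩
        · intro h
          have := h0 s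
          rw [H.f0_eq_zero h, LinearMap.zero_apply] at this
          refine one_tmul_ne_zero p.asIdeal.ResidueField g hg ((D'.fibreBC p).Φ0.injective ?_)
          rw [BC.Φ0_tmul, one_smul, map_zero]
          exact this.symm
        · intro h
          have := h1 s
          rw [H.f1_eq_zero h, LinearMap.zero_apply] at this
          refine one_tmul_ne_zero p.asIdeal.ResidueField g hg ((D'.fibreBC p).Φ1.injective ?_)
          rw [BC.Φ1_tmul, one_smul, map_zero]
          exact this.symm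
      have hbij := H.bijective_of_χ_eq hH (hχ p)
      exact ⟨hbij.1.2, hbij.2.1.2⟩
  exacts [hb.1, hb.2.1, hb.2.2]

end Datum

end

end Fermat.PIC
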