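import Fermat.Agent.PIC.Ops.Point
import Fermat.Agent.PIC.Global.Defs
import Mathlib

/-!
# Points with values in valuation rings

A point of the curve over the fractions of a valuation ring extends to the valuation ring, as a
divisor; line bundles over local rings are trivial at the base point.
-/

set_option autoImplicit false

universe u

open Polynomial

namespace Fermat.PIC

noncomputable section

variable {k : Type u} [Field k] {R K : Type u} [CommRing R] [IsDomain R] [IsIntegrallyClosed R]
  [Field K] [Algebra k R] [Algebra k K] [Algebra R K] [IsScalarTower k R K] [IsFractionRing R K]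

omit [IsDomain R] in
/-- A point of an algebra finite over a coordinate is integral as soon as the coordinate is. -/
theorem exists_algHom_lift {A : Type u} [CommRing A] [Algebra k A] {a : A}
    (hfin : (Polynomial.aeval a : k[X] →ₐ[k] A).toRingHom.Finite) (σ : A →ₐ[k] K)
    (h : σ a ∈ Set.range (algebraMap R K)) :
    ∃ σ₀ : A →ₐ[k] R, (IsScalarTower.toAlgHom k R K).comp σ₀ = σ := by
  obtain ⟨r, hr⟩ := h
  set ι := IsScalarTower.toAlgHom k R K
  have hint : ∀ b, ∃ z, ι z = σ b := fun b ↦ by
    obtain ⟨p, hp, hp0⟩ := hfin.to_isIntegral b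
    refine IsIntegrallyClosed.isIntegral_iff.mp
      ⟨p.map (Polynomial.aeval r : k[X] →ₐ[k] R).toRingHom, hp.map _, ?_⟩
    rw [eval₂_map]
    have e : (algebraMap R K).comp (Polynomial.aeval r : k[X] →ₐ[k] R).toRingHom =
        σ.toRingHom.comp (Polynomial.aeval a : k[X] →ₐ[k] A).toRingHom := by
      exact congrArg AlgHom.toRingHom (Polynomial.algHom_ext (f := ι.comp (Polynomial.aeval r))
        (g := σ.comp (Polynomial.aeval a)) (by simpa [ι] using hr))
    rw [e, show σ b = σ.toRingHom b from rfl, ← hom_eval₂]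
    exact (congrArg σ hp0).trans (map_zero σ)
  choose z hz using hint
  have hinj : Function.Injective ι := IsFractionRing.injective R K
  exact ⟨{ toFun := z
           map_one' := hinj (by rw [hz, map_one, map_one])
           map_mul' := fun x y ↦ hinj (by rw [hz, map_mul, map_mul, hz, hz])
           map_zero' := hinj (by rw [hz, map_zero, map_zero])
           map_add' := fun x y ↦ hinj (by rw [hz, map_add, map_add, hz, hz])
           commutes' := fun x ↦ hinj (by rw [hz, σ.commutes, ι.commutes]) }, AlgHom.ext hz⟩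

variable [ValuationRing R]

/-- **A point of the first chart extends to a divisor over the valuation ring.** -/
theorem Div.exists_map_eq_point0 {G : CurveCharts k} (σ : G.A0 →ₐ[k] K) :
    ∃ E : Div G R, E.map (IsScalarTower.toAlgHom k R K) = Div.point0 σ := by
  by_cases hx : σ G.x ∈ Set.range (algebraMap R K)
  · obtain ⟨σ₀, hσ⟩ := exists_algHom_lift G.finite0 σ hx
    exact ⟨Div.point0 σ₀, by rw [Div.map_point0, hσ]⟩
  · have hx0 : σ G.x ≠ 0 := fun h ↦ hx ⟨0, by rw [map_zero, h]⟩
    let := G.res0.toRingHom.toAlgebra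
    have := G.loc0
    let τ₀ : G.A01 →+* K := IsLocalization.Away.lift G.x (g := σ.toRingHom) hx0.isUnit
    have hτ₀ : ∀ a, τ₀ (G.res0 a) = σ a := fun a ↦ IsLocalization.Away.lift_eq G.x hx0.isUnit a
    have hc : ∀ c, τ₀ (algebraMap k G.A01 c) = algebraMap k K c := fun c ↦ by
      rw [← G.res0.commutes, hτ₀, σ.commutes]
    let τ : G.A01 →ₐ[k] K := { τ₀ with commutes' := hc }
    have hτ : τ.comp G.res0 = σ := AlgHom.ext hτ₀
    have hy : τ.comp G.res1 G.y = (σ G.x)⁻¹ := by
      refine eq_inv_of_mul_eq_one_right ?_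
      rw [← hτ, AlgHom.comp_apply, AlgHom.comp_apply, ← _root_.map_mul, G.res0_mul_res1,
        _root_.map_one]
    obtain ⟨σ₁, hσ₁⟩ := exists_algHom_lift (R := R) G.finite1 (τ.comp G.res1) <| by
      rw [hy]
      exact (ValuationRing.isInteger_or_isInteger R (σ G.x)).resolve_left hx
    exact ⟨Div.point1 σ₁, by rw [Div.map_point1, hσ₁, ← Div.point0_eq_point1, hτ]⟩

namespace Datum

/-- Over a local ring every line bundle is trivial at the base point. -/
theorem epsTrivial_of_isLocalRing {G : CurveCharts k} {B : Type u} [CommRing B] [Algebra k B]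
    [IsLocalRing B] (D : Datum G B) : D.EpsTrivial := by
  obtain ⟨t, ht⟩ := (Module.Invertible.bijective (R := G.R1 B) (M := D.P1)).2 1
  have key : ∀ t, IsUnit (G.εB B (contractLeft (G.R1 B) D.P1 t)) →
      ∃ (φ : Module.Dual (G.R1 B) D.P1) (p : D.P1), IsUnit (G.εB B (φ p)) := fun t ↦ by
    induction t using TensorProduct.induction_on with
    | zero => intro h; rw [map_zero, map_zero] at h; exact absurd h not_isUnit_zero
    | tmul φ p => intro h; exact ⟨φ, p, by simpa using h⟩
    | add v w hv hw =>
      intro h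
      rw [map_add, map_add] at h
      exact (IsLocalRing.isUnit_or_isUnit_of_isUnit_add h).elim hv hw
  obtain ⟨φ, p, v, hv⟩ := key t (by rw [ht, map_one]; exact isUnit_one)
  refine ⟨p, algebraMap B (G.R1 B) ↑v⁻¹ • φ, ?_⟩
  rw [LinearMap.smul_apply, smul_eq_mul, map_mul, AlgHom.commutes, ← hv]
  exact v.inv_mul

end Datum

end

end Fermat.PIC
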