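import Fermat.Agent.PIC.Proper.Separated
import Fermat.Agent.PIC.Proper.Points
import Fermat.Agent.PIC.Bridge.EpsTrivial
import Fermat.Agent.PIC.Global.AlgEquiv
import Fermat.Agent.PIC.Global.SurjImage
import Fermat.Agent.PIC.Global.Valuative
import Fermat.Prelude.Def_AlgebraicGeometry_RepresentsRelSubPic
import Mathlib

/-!
# The representing scheme of the degree zero Picard functor is proper and geometrically connected

It is covered by the family of differences of points; the existence part of the valuative
criterion is checked on data.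

`isProper_represent` and `geometricallyConnected_represent`, the remaining claims of S25.
-/

set_option autoImplicit false

universe u

open CategoryTheory CategoryTheory.Limits AlgebraicGeometry NeronModelInfra
open AlgebraicGeometry.RelPicard GoodReductionJacobian

namespace Fermat.PIC

noncomputable section

/-- Geometrically integral morphisms are geometrically connected. -/
theorem geometricallyConnected_of_geometricallyIntegral {X Y : Scheme.{u}} (f : X ⟶ Y)
    [GeometricallyIntegral f] : GeometricallyConnected f := by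
  refine ⟨fun K _ y Z fst snd hP ↦ ?_⟩
  have : IsIntegral Z := GeometricallyIntegral.geometrically_isIntegral (f := f) y fst snd hP
  exact inferInstance

namespace CurveModel

variable {k : Type u} [Field k] {C : Scheme.{u}} {c : C ⟶ Spec (CommRingCat.of k)}
  {ε : SchemeHomOver (𝟙 (Spec (CommRingCat.of k))) c} (M : CurveModel c ε)
  {D : RelativePic0Designation k c}

include M in
/-- Points with values in an affine scheme are determined by their data. -/
theorem eq_of_equiv_datAt {P : SubPicCondition c ε} (h : RepresentsRelSubPic c ε P D)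
    {B : Type u} [CommRing B] [Algebra k B] (S S' : SchemeHomOver (specStr (k := k) B) D.toBase)
    (e : Datum.Equiv (M.datAt h.poincare.isInvertible S) (M.datAt h.poincare.isInvertible S')) :
    S = S' := by
  obtain ⟨θ, -, -, -⟩ := M.exists_iso_of_equiv B (h.poincare.isInvertible.pullback _)
    (h.poincare.isInvertible.pullback _) e
  exact h.ext_of_iso _ S S' ⟨θ⟩

/-- The data of the classifying point of a line bundle. -/
theorem nonempty_equiv_datAt_classify {P : SubPicCondition c ε} (h : RepresentsRelSubPic c ε P D)
    {T : Scheme.{u}} (t : T ⟶ Spec (CommRingCat.of k)) (A : RigidifiedLineBundle c ε t)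
    (hA : P.P t A) {B : Type u} [CommRing B] [Algebra k B]
    (r : SchemeHomOver (specStr (k := k) B) t) :
    Nonempty (Datum.Equiv (M.datAt h.poincare.isInvertible (postComp (h.classify t A hA) r))
      (M.datAt A.isInvertible r)) := by
  obtain ⟨i⟩ := h.classify_spec t A hA
  exact ⟨(M.datAtModAt h.poincare.isInvertible (h.classify t A hA) r).symm.trans
    (M.datAtIso (h.poincare.pullbackAlong (h.classify t A hA)).isInvertible A.isInvertible i r)⟩

variable [IsAlgClosed k]

variable (h : RepresentsRelSubPic c ε (algEquivZeroCut c ε) D)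

include M in
/-- The Poincaré bundle has degree zero on every geometric fibre. -/
lemma degZero_poincare : M.DegZero h.poincare.isInvertible :=
  (M.fibrewiseAlgEquivZero_iff h.poincare).mp h.poincare_mem

include M h in
/-- **An integral affine scheme maps onto the representing scheme.** -/
theorem exists_surjective_family :
    ∃ (R : Type u) (_ : CommRing R) (_ : Algebra k R) (_ : IsDomain R)
      (g : SchemeHomOver (specStr (k := k) R) D.toBase), Surjective g.1 := by
  obtain ⟨n, hn⟩ := Datum.exists_pos_bound M.G
  let P := M.G.pointsAlg (n * M.G.deg)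
  obtain ⟨L, hL, ⟨e⟩⟩ : ∃ (L : _) (hL : Scheme.Modules.IsInvertible L),
      Nonempty (Datum.Equiv (M.datOf P.R L hL) (CurveCharts.pointsBundle n P.pt)) :=
    M.exists_sheaf_of_datum (CurveCharts.pointsBundle n P.pt)
  let A : RigidifiedLineBundle c ε (specStr (k := k) P.R) :=
    ⟨L, hL, (M.nonempty_rig_iff P.R hL).mpr
      (e.symm.epsTrivial (CurveCharts.epsTrivial_pointsBundle _))⟩
  have hdat : ∀ (B : Type u) [CommRing B] [Algebra k B] (φ : P.R →ₐ[k] B)
      (σ : Fin (n * M.G.deg) → (M.G.A0 →ₐ[k] B)), (∀ j, φ.comp (P.pt j) = σ j) →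
      Nonempty (Datum.Equiv (M.datAt A.isInvertible (specHom φ))
        (CurveCharts.pointsBundle n σ)) := fun B _ _ φ σ hσ ↦
    Datum.BC.nonempty_equiv ((M.bcOf hL φ).congr e (Datum.Equiv.refl _))
      (CurveCharts.pointsBundleBC φ _ σ hσ)
  have hA : FibrewiseAlgEquivZero A := (M.fibrewiseAlgEquivZero_iff A).mpr fun K _ _ _ s ↦ by
    obtain ⟨φ, rfl⟩ := exists_specHom s
    obtain ⟨e⟩ := hdat K φ _ fun j ↦ rfl
    rw [e.degree_eq, CurveCharts.degree_pointsBundle, Nat.cast_mul, sub_self]
  refine ⟨P.R, inferInstance, inferInstance, inferInstance, h.classify _ A hA, ⟨fun x ↦ ?_⟩⟩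
  let K := AlgebraicClosure (D.P.residueField x)
  let s₀ : Spec (CommRingCat.of K) ⟶ D.P :=
    Spec.map (CommRingCat.ofHom (algebraMap (D.P.residueField x) K)) ≫ D.P.fromSpecResidueField x
  obtain ⟨_, hs⟩ := exists_algebra_specStr (k := k) K (s₀ ≫ D.toBase)
  let S : SchemeHomOver (specStr (k := k) K) D.toBase := ⟨s₀, hs.symm⟩
  obtain ⟨σ, ⟨eσ⟩⟩ := hn K _ (M.degZero_poincare h K S) n le_rfl
  obtain ⟨eσ'⟩ := CurveCharts.nonempty_equiv_pointsBundle _ σ eσ
  obtain ⟨φ, hφ⟩ := P.exists_lift K σ
  obtain ⟨eφ⟩ := hdat K φ σ hφ
  obtain ⟨ec⟩ := M.nonempty_equiv_datAt_classify h _ A hA (specHom φ)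
  have key := M.eq_of_equiv_datAt h _ S ((ec.trans eφ).trans eσ'.symm)
  refine ⟨(specHom φ).1 default, ?_⟩
  have h1 := congrArg (fun s : SchemeHomOver (specStr (k := k) K) D.toBase ↦ s.1 default) key
  exact ((Scheme.Hom.comp_apply _ _ _).symm.trans h1).trans
    ((Scheme.Hom.comp_apply _ _ _).trans (Scheme.fromSpecResidueField_apply x _))

include M h in
/-- The representing scheme is quasi-compact. -/
theorem compactSpace_represent : CompactSpace D.P := by
  obtain ⟨R, _, _, _, g, hg⟩ := M.exists_surjective_family h
  exact g.1.surjective.compactSpace g.1.continuous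

include M h in
/-- **The representing scheme is geometrically connected.** -/
theorem geometricallyConnected_represent : GeometricallyConnected D.toBase := by
  obtain ⟨R, _, _, _, g, hg⟩ := M.exists_surjective_family h
  have := geometricallyIntegral_specStr (k := k) R
  have : GeometricallyConnected (g.1 ≫ D.toBase) := by
    rw [g.2]; exact geometricallyConnected_of_geometricallyIntegral _
  exact geometricallyConnected_of_surjective g.1 D.toBase

include M h in
/-- **Geometric points extend over valuation rings.** -/
theorem geomExistence_represent : GeomExistence D.toBase := by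
  intro R K _ _ _ _ _ _ _ i₁ i₂ w
  obtain ⟨_, hi₂⟩ := exists_algebra_specStr (k := k) R i₂
  let := ((algebraMap R K).comp (algebraMap k R)).toAlgebra
  have : IsScalarTower k R K := IsScalarTower.of_algebraMap_eq' rfl
  let S : SchemeHomOver (specStr (k := k) K) D.toBase :=
    ⟨i₁, by rw [w, ← hi₂]; exact specStr_comp R K⟩
  obtain ⟨n, hn⟩ := Datum.exists_pos_bound M.G
  obtain ⟨σ, ⟨eσ⟩⟩ := hn K _ (M.degZero_poincare h K S) n le_rfl
  obtain ⟨eσ'⟩ := CurveCharts.nonempty_equiv_pointsBundle _ σ eσ
  choose E hE using fun j ↦ Div.exists_map_eq_point0 (R := R) (σ j)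
  let DR := (Datum.pos (∏ j, E j)).twist (-(n : ℤ))
  let ι := IsScalarTower.toAlgHom k R K
  have bc : Datum.BC ι DR (CurveCharts.pointsBundle n σ) :=
    ((Datum.BC.pos ι (∏ j, E j)).congr (Datum.Equiv.refl _)
      (Datum.posCongr (by simp only [Div.map_prod, ι, hE]))).twist (-(n : ℤ))
  obtain ⟨L, hL, ⟨e⟩⟩ := M.exists_sheaf_of_datum DR
  let A : RigidifiedLineBundle c ε (specStr (k := k) R) :=
    ⟨L, hL, (M.nonempty_rig_iff R hL).mpr (Datum.epsTrivial_of_isLocalRing _)⟩
  obtain ⟨eK⟩ : Nonempty (Datum.Equiv (M.datAt A.isInvertible (specHom ι))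
      (CurveCharts.pointsBundle n σ)) :=
    Datum.BC.nonempty_equiv ((M.bcOf hL ι).congr e (Datum.Equiv.refl _)) bc
  have hA : FibrewiseAlgEquivZero A := (M.fibrewiseAlgEquivZero_iff A).mpr fun K' _ _ _ s ↦ by
    rw [M.degree_datAt_eq A.isInvertible s (specHom ι), eK.degree_eq,
      CurveCharts.degree_pointsBundle, Nat.cast_mul, sub_self]
  refine ⟨(h.classify _ A hA).1, ?_, (h.classify _ A hA).2.trans hi₂⟩
  obtain ⟨ec⟩ := M.nonempty_equiv_datAt_classify h _ A hA (specHom ι)
  exact congrArg Subtype.val (M.eq_of_equiv_datAt h _ S ((ec.trans eK).trans eσ'.symm))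

include M h in
/-- **The representing scheme of the degree zero Picard functor is proper.** -/
theorem isProper_represent [LocallyOfFiniteType D.toBase] : IsProper D.toBase := by
  have : CompactSpace D.P := M.compactSpace_represent h
  have : QuasiCompact D.toBase := (quasiCompact_iff_compactSpace _).mpr inferInstance
  have : IsSeparated D.toBase := M.isSeparated_toBase h
  have : UniversallyClosed D.toBase :=
    universallyClosed_of_geomExistence _ (M.geomExistence_represent h)
  exact {}

end CurveModel

end

end Fermat.PIC
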