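import Mathlib

/-!
# Common scalar factors of finite families in projective modules over valuation rings

`exists_primitive` factors out a scalar so that some member becomes unimodular.
-/

set_option autoImplicit false

universe u v

open scoped TensorProduct

namespace Fermat.PIC

variable {V : Type u} [CommRing V] [IsDomain V] [ValuationRing V]

/-- Of finitely many elements not all zero, a nonzero one divides all others. -/
lemma exists_dvd_all {ι : Type v} (S : Finset ι) (f : ι → V) (hS : ∃ i ∈ S, f i ≠ 0) :
    ∃ i ∈ S, f i ≠ 0 ∧ ∀ j ∈ S, f i ∣ f j := by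
  classical
  induction S using Finset.induction with
  | empty => simp at hS
  | insert a S ha ih =>
    by_cases h0 : ∃ i ∈ S, f i ≠ 0
    · obtain ⟨i, hi, hi0, hdvd⟩ := ih h0
      rcases ValuationRing.dvd_total (f i) (f a) with h | h
      · refine ⟨i, Finset.mem_insert_of_mem hi, hi0, fun j hj ↦ ?_⟩
        rcases Finset.mem_insert.mp hj with rfl | hj
        exacts [h, hdvd j hj]
      · refine ⟨a, Finset.mem_insert_self a S, fun h' ↦ hi0 ?_, fun j hj ↦ ?_⟩
        · rw [h'] at h
          exact zero_dvd_iff.mp h
        · rcases Finset.mem_insert.mp hj with rfl | hj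
          exacts [dvd_rfl, h.trans (hdvd j hj)]
    · push Not at h0
      obtain ⟨i, hi, hi0⟩ := hS
      rcases Finset.mem_insert.mp hi with rfl | hi
      · refine ⟨i, Finset.mem_insert_self i S, hi0, fun j hj ↦ ?_⟩
        rcases Finset.mem_insert.mp hj with rfl | hj
        · exact dvd_rfl
        · rw [h0 j hj]; exact dvd_zero _
      · exact absurd (h0 i hi) hi0

/-- A finite family in a projective module over a valuation ring, not all zero, is a scalar
multiple of a family one of whose members is sent to `1` by some linear form. -/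
theorem exists_primitive {P : Type u} [AddCommGroup P] [Module V P] [Module.Projective V P]
    {ι : Type v} [Finite ι] (p : ι → P) (hp : ∃ i, p i ≠ 0) :
    ∃ (a : V) (q : ι → P), a ≠ 0 ∧ (∀ i, p i = a • q i) ∧
      ∃ (i : ι) (g : Module.Dual V P), g (q i) = 1 := by
  classical
  have := Fintype.ofFinite ι
  obtain ⟨s, hs⟩ := Module.projective_def'.mp ‹Module.Projective V P›
  let S : Finset (ι × P) := Finset.univ.biUnion fun i ↦ (s (p i)).support.image (Prod.mk i)
  have hmem : ∀ i j, s (p i) j ≠ 0 → (i, j) ∈ S := fun i j h ↦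
    Finset.mem_biUnion.mpr ⟨i, Finset.mem_univ _,
      Finset.mem_image.mpr ⟨j, Finsupp.mem_support_iff.mpr h, rfl⟩⟩
  have hne : ∃ x ∈ S, s (p x.1) x.2 ≠ 0 := by
    obtain ⟨i, hi⟩ := hp
    have : s (p i) ≠ 0 := fun h ↦ hi (by rw [← LinearMap.id_apply (R := V) (p i), ← hs,
      LinearMap.comp_apply, h, map_zero])
    obtain ⟨j, hj⟩ := Finsupp.ne_iff.mp this
    exact ⟨(i, j), hmem i j hj, hj⟩
  obtain ⟨⟨i₀, j₀⟩, -, hne0, hdvd⟩ := exists_dvd_all S (fun x ↦ s (p x.1) x.2) hne
  let a := s (p i₀) j₀
  have hd : ∀ i j, a ∣ s (p i) j := fun i j ↦ by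
    by_cases h : s (p i) j = 0
    · rw [h]; exact dvd_zero _
    · exact hdvd _ (hmem i j h)
  choose b hb using hd
  let c : ι → (P →₀ V) := fun i ↦ Finsupp.onFinset (s (p i)).support (b i) fun j hj ↦
    Finsupp.mem_support_iff.mpr fun h ↦
      hj ((mul_eq_zero.mp ((hb i j).symm.trans h)).resolve_left hne0)
  have hc : ∀ i, s (p i) = a • c i := fun i ↦ Finsupp.ext fun j ↦ hb i j
  let q : ι → P := fun i ↦ Finsupp.linearCombination V id (c i)
  have hq : ∀ i, p i = a • q i := fun i ↦ by
    rw [← map_smul, ← hc]
    exact (LinearMap.congr_fun hs (p i)).symm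
  refine ⟨a, q, hne0, hq, i₀, (Finsupp.lapply j₀).comp s, mul_left_cancel₀ hne0 ?_⟩
  rw [mul_one]
  have := congrArg ((Finsupp.lapply j₀).comp s) (hq i₀)
  rw [map_smul] at this
  exact this.symm

/-- An element on which a linear form takes a unit value survives in the base change to any
nontrivial algebra. -/
lemma one_tmul_ne_zero {R : Type u} [CommRing R] {P : Type u} [AddCommGroup P] [Module R P]
    (K : Type u) [CommRing K] [Nontrivial K] [Algebra R K] {q : P} (g : Module.Dual R P)
    (hg : IsUnit (g q)) : (1 : K) ⊗ₜ[R] q ≠ 0 := fun h ↦ by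
  have := congrArg (LinearMap.baseChange K g) h
  rw [LinearMap.baseChange_tmul, map_zero] at this
  have h' := congrArg (TensorProduct.rid R K) this
  rw [TensorProduct.rid_tmul, map_zero, Algebra.smul_def, mul_one] at h'
  exact ((hg.map (algebraMap R K)).ne_zero) h'

/-- A linear map onto a finite module over an algebra is surjective if it is so on every fibre over
the base. -/
theorem surjective_of_forall_fibre {B : Type u} [CommRing B] {R : Type u} [CommRing R] [Algebra B R]
    {P Q : Type u} [AddCommGroup P] [AddCommGroup Q] [Module R P] [Module R Q] [Module B P]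
    [Module B Q] [IsScalarTower B R P] [IsScalarTower B R Q] [Module.Finite R Q] (f : P →ₗ[R] Q)
    (h : ∀ p : PrimeSpectrum B,
      Function.Surjective ((f.restrictScalars B).baseChange p.asIdeal.ResidueField)) :
    Function.Surjective f := by
  let C := Q ⧸ LinearMap.range f
  suffices hC : (⊤ : Submodule R C) = ⊥ by
    intro x
    have : Submodule.Quotient.mk (p := LinearMap.range f) x = (0 : C) := by
      rw [← Submodule.mem_bot (R := R), ← hC]; trivial
    exact (Submodule.Quotient.mk_eq_zero _).mp this
  suffices hann : (⊤ : Submodule R C).annihilator = ⊤ by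
    rwa [Submodule.annihilator_eq_top_iff] at hann
  by_contra hann
  -- else the cokernel has a maximal ideal `m` in the support
  obtain ⟨m, hm, hle⟩ := Ideal.exists_le_maximal _ hann
  have hmC : (⊤ : Submodule R C) ≤ m • ⊤ := by
    let W := C ⧸ (m • ⊤ : Submodule R C)
    let p : PrimeSpectrum B := ⟨m.comap (algebraMap B R), inferInstance⟩
    let := Ideal.Quotient.field m
    let φ : p.asIdeal.ResidueField →+* R ⧸ m :=
      Ideal.ResidueField.lift p.asIdeal ((Ideal.Quotient.mk m).comp (algebraMap B R))
        (fun b hb ↦ Ideal.Quotient.eq_zero_iff_mem.mpr hb)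
        (fun b hb ↦ IsUnit.mk0 _ fun h ↦
          hb (Ideal.mem_comap.mpr ((Ideal.Quotient.eq_zero_iff_mem (I := m)).mp h)))
    let : Module p.asIdeal.ResidueField W := Module.compHom W φ
    have : IsScalarTower B p.asIdeal.ResidueField W := IsScalarTower.of_algebraMap_smul fun b w ↦ by
      change φ (algebraMap B _ b) • w = b • w
      rw [show φ (algebraMap B _ b) = Ideal.Quotient.mk m (algebraMap B R b) from
        Ideal.ResidueField.lift_algebraMap _ _ _ _ b, ← algebraMap_smul R b w]
      rfl
    let l : Q →ₗ[B] W :=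
      ((Submodule.mkQ _).comp (LinearMap.range f).mkQ).restrictScalars B
    have hl : ∀ z, l.liftBaseChange p.asIdeal.ResidueField
        ((f.restrictScalars B).baseChange p.asIdeal.ResidueField z) = 0 := by
      intro z
      induction z using TensorProduct.induction_on with
      | zero => simp
      | add v w hv hw => rw [map_add, map_add, hv, hw, add_zero]
      | tmul a x =>
        rw [LinearMap.baseChange_tmul, LinearMap.liftBaseChange_tmul]
        have : l (f x) = 0 := by
          change Submodule.Quotient.mk (Submodule.Quotient.mk (f x)) = 0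
          rw [(Submodule.Quotient.mk_eq_zero _).mpr (LinearMap.mem_range_self f x),
            Submodule.Quotient.mk_zero]
        rw [show (f.restrictScalars B) x = f x from rfl, this, smul_zero]
    intro x _
    obtain ⟨x, rfl⟩ := Submodule.mkQ_surjective _ x
    obtain ⟨z, hz⟩ := h p (1 ⊗ₜ x)
    have h1 := hl z
    rw [hz, LinearMap.liftBaseChange_tmul, one_smul] at h1
    exact (Submodule.Quotient.mk_eq_zero _).mp h1
  -- it is zero modulo `m`, contradicting Nakayama
  obtain ⟨r, hr1, hr0⟩ :=
    Submodule.exists_sub_one_mem_and_smul_eq_zero_of_fg_of_le_smul m ⊤ Module.Finite.fg_top hmC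
  have hr : r ∈ m := hle (Submodule.mem_annihilator.mpr hr0)
  exact hm.ne_top ((Ideal.eq_top_iff_one m).mpr (by simpa using m.sub_mem hr hr1))

end Fermat.PIC
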