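import Fermat.Agent.PIC.Proper.Extend
import Fermat.Agent.PIC.Global.AlgEquiv
import Fermat.Agent.PIC.Bridge.HomOf

/-!
# The Picard scheme is separated

`isSeparated_toBase`, by extending isomorphisms over valuation rings (`Extend`).
-/

set_option autoImplicit false

universe u

open CategoryTheory CategoryTheory.Limits AlgebraicGeometry NeronModelInfra
open AlgebraicGeometry.RelPicard GoodReductionJacobian

namespace Fermat.PIC

noncomputable section

variable {k : Type u} [Field k]

namespace CurveModel

variable {C : Scheme.{u}} {c : C ⟶ Spec (CommRingCat.of k)}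
  {ε : SchemeHomOver (𝟙 (Spec (CommRingCat.of k))) c} (M : CurveModel c ε)

variable [IsAlgClosed k]

/-- Degree zero on geometric fibres gives the Euler characteristic of every fibre. -/
lemma χ_fibre_of_degZero {B : Type u} [CommRing B] [Algebra k B]
    {L : (pullback c (specStr (k := k) B)).Modules} (hL : Scheme.Modules.IsInvertible L)
    (h : M.DegZero hL) (p : PrimeSpectrum B) :
    ((M.datOf B L hL).fibre p).χ = 1 - (M.G.genus : ℤ) := by
  let κ := p.asIdeal.ResidueField
  let K := AlgebraicClosure κ
  let φ : B →ₐ[k] K := IsScalarTower.toAlgHom k B K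
  obtain ⟨F, ⟨bF⟩⟩ := ((M.datOf B L hL).fibre p).exists_baseChange K
  have hc : (IsScalarTower.toAlgHom k κ K).comp (IsScalarTower.toAlgHom k B κ) = φ :=
    AlgHom.ext fun b ↦ (IsScalarTower.algebraMap_apply B κ K b).symm
  obtain ⟨e⟩ := (Datum.BC.copy hc (((M.datOf B L hL).fibreBC p).comp bF)).nonempty_equiv
    (M.bcOf hL φ)
  have h0 : (M.datAt hL (specHom φ)).degree = 0 := h K (specHom φ)
  rw [Datum.χ_eq_degree, ← bF.degree_eq, e.degree_eq,
    show (M.datOf K _ (hL.pullback _)).degree = 0 from h0, zero_add]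

/-- Bundles of degree zero over a valuation ring which are isomorphic at the generic point are
isomorphic. -/
theorem nonempty_iso_of_generic {V : Type u} [CommRing V] [IsDomain V] [ValuationRing V]
    [Algebra k V] {K : Type u} [Field K] [Algebra k K] [Algebra V K] [IsScalarTower k V K]
    [IsFractionRing V K] {L L' : (pullback c (specStr (k := k) V)).Modules}
    (hL : Scheme.Modules.IsInvertible L) (hL' : Scheme.Modules.IsInvertible L')
    (h : M.DegZero hL) (h' : M.DegZero hL')
    (e : modAt L (specHom (IsScalarTower.toAlgHom k V K)) ≅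
      modAt L' (specHom (IsScalarTower.toAlgHom k V K))) :
    Nonempty (L ≅ L') := by
  obtain ⟨ee⟩ := Datum.nonempty_equiv_of_generic (M.bcOf hL (IsScalarTower.toAlgHom k V K))
    (M.bcOf hL' (IsScalarTower.toAlgHom k V K)) (M.datOfIso K e) fun p ↦ by
      rw [M.χ_fibre_of_degZero hL h p, M.χ_fibre_of_degZero hL' h' p]
  obtain ⟨θ, -⟩ := M.exists_iso_of_equiv V hL hL' ee
  exact ⟨θ⟩

/-- **The representing scheme is separated.** -/
theorem isSeparated_toBase (M : CurveModel c ε) {D : RelativePic0Designation k c}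
    (h : RepresentsRelSubPic c ε (algEquivZeroCut c ε) D) [LocallyOfFiniteType D.toBase] :
    IsSeparated D.toBase := by
  have : IsLocallyNoetherian D.P := LocallyOfFiniteType.isLocallyNoetherian D.toBase
  have : QuasiSeparated D.toBase := inferInstance
  refine IsSeparated.of_valuativeCriterion D.toBase ?_
  intro S
  constructor
  rintro ⟨l₁, hl₁, hl₁'⟩ ⟨l₂, hl₂, hl₂'⟩
  obtain ⟨a, hs⟩ := exists_algebra_specStr (k := k) S.R S.i₂
  let := a
  let : Algebra k S.K := ((algebraMap S.R S.K).comp (algebraMap k S.R)).toAlgebra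
  have : IsScalarTower k S.R S.K := IsScalarTower.of_algebraMap_eq fun _ ↦ rfl
  let g₁ : SchemeHomOver (specStr (k := k) S.R) D.toBase := ⟨l₁, hl₁'.trans hs.symm⟩
  let g₂ : SchemeHomOver (specStr (k := k) S.R) D.toBase := ⟨l₂, hl₂'.trans hs.symm⟩
  let φ := IsScalarTower.toAlgHom k S.R S.K
  have hgen : postComp g₁ (specHom φ) = postComp g₂ (specHom φ) :=
    Subtype.ext (hl₁.trans hl₂.symm)
  have hdeg : ∀ g : SchemeHomOver (specStr (k := k) S.R) D.toBase,
      M.DegZero (h.poincare.pullbackAlong g).isInvertible := fun g ↦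
    (M.fibrewiseAlgEquivZero_iff _).mp (h.poincare_mem.pullback g)
  obtain ⟨e⟩ := M.nonempty_iso_of_generic (h.poincare.pullbackAlong g₁).isInvertible
    (h.poincare.pullbackAlong g₂).isInvertible (hdeg g₁) (hdeg g₂)
    (modAtComp h.poincare.L g₁ (specHom φ) ≪≫
      (Scheme.Modules.pullbackCongr (congrArg (baseChangeSnd c) hgen)).app h.poincare.L ≪≫
        (modAtComp h.poincare.L g₂ (specHom φ)).symm)
  have := h.ext_of_iso _ g₁ g₂ ⟨e⟩
  ext : 1
  exact congrArg Subtype.val this

end CurveModel

end

end Fermat.PIC
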